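import Fermat.Agent.MUL.Orig.S05.H65.Vieta

/-!
# The component function near a node: abstract valuation computations

Field elements `ξ₁ ξ₂ r₁ r₂` related by
* `(r₁ + r₂) (ξ₁ - ξ₂)² = 2 (ξ₁ξ₂ - δ²)(ξ₁ + ξ₂ + 2b₀)`
* `(r₁ r₂) (ξ₁ - ξ₂)² = (ξ₁ξ₂ + δ²)² + 4δ²b₀(ξ₁ + ξ₂ + b₀)`
where `w δ = h > 0`, `w b₀ = 0`, `w 2 = 0`.
-/

set_option autoImplicit false

namespace S05H65

namespace AVal

variable {K : Type*} [Field K] {G : Type*} [AddCommGroup G] [LinearOrder G] [IsOrderedAddMonoid G]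

/-- Basic hypotheses on the parameters of the nodal model. -/
structure Core (V : AVal K G) (δ b₀ : K) (h : G) : Prop where
  h2 : V.Ex (2 : K) 0
  hb₀ : V.Ex b₀ 0
  hδ : V.Ex δ h
  hh : 0 < h

/-- The clamped valuation `min (max (w x) 0) h`, with value `h` at `0`. -/
noncomputable def cl (V : AVal K G) (h : G) (x : K) : G :=
  open Classical in if x = 0 then h else min (max (V.w x) 0) h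

variable {V : AVal K G} {δ b₀ : K} {h : G}

lemma cl_of_ex {x : K} {g : G} (hx : V.Ex x g) : V.cl h x = min (max g 0) h := by
  simp only [cl, if_neg hx.1, hx.2]

lemma cl_of_ge (hh : 0 < h) {x : K} (hx : V.Ge x h) : V.cl h x = h := by
  by_cases h0 : x = 0
  · simp only [cl, if_pos h0]
  · simp only [cl, if_neg h0]
    have := hx.le_of_ne h0
    grind

lemma cl_of_notM (hh : 0 < h) {x : K} (hx : V.NotM x) : V.cl h x = 0 := by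
  simp only [cl, if_neg hx.1]
  have := hx.2
  grind

lemma cl_nonneg (hh : 0 < h) (x : K) : 0 ≤ V.cl h x := by
  by_cases h0 : x = 0
  · simp only [cl, if_pos h0]; exact hh.le
  · simp only [cl, if_neg h0]; grind

lemma cl_le (hh : 0 < h) (x : K) : V.cl h x ≤ h := by
  by_cases h0 : x = 0
  · simp only [cl, if_pos h0]; exact le_refl _
  · simp only [cl, if_neg h0]; grind

lemma cl_neg (x : K) : V.cl h (-x) = V.cl h x := by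
  unfold cl
  rw [V.w_neg]
  by_cases h0 : x = 0 <;> simp [h0]

/-- The three regimes. -/
lemma regime (V : AVal K G) (h : G) (x : K) :
    (∃ g, V.Ex x g ∧ g ≤ 0) ∨ (∃ g, V.Ex x g ∧ 0 < g ∧ g < h) ∨ V.Ge x h := by
  by_cases h0 : x = 0
  · exact Or.inr (Or.inr (Or.inl h0))
  · by_cases h1 : V.w x ≤ 0
    · exact Or.inl ⟨_, ⟨h0, rfl⟩, h1⟩
    · by_cases h2 : V.w x < h
      · exact Or.inr (Or.inl ⟨_, ⟨h0, rfl⟩, not_le.mp h1, h2⟩)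
      · exact Or.inr (Or.inr (Or.inr (not_lt.mp h2)))

namespace Core

variable (C : V.Core δ b₀ h)
include C

lemma ex_four : V.Ex (4 : K) 0 := by
  have := C.h2.mul C.h2
  rw [add_zero] at this
  convert this using 1
  norm_num

lemma ex_δsq : V.Ex (δ ^ 2) (h + h) := C.hδ.sq

lemma ex_two_b₀ : V.Ex (2 * b₀) 0 := by
  have := C.h2.mul C.hb₀
  rwa [add_zero] at this

lemma ex_coef : V.Ex (4 * δ ^ 2 * b₀) (h + h) := by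
  have := (C.ex_four.mul C.ex_δsq).mul C.hb₀
  exact this.congr (by grind)

end Core

/-- The relation between the clamped valuations of `ξ₁, ξ₂` and those of `r₁, r₂`. -/
def Rel (h a b c d : G) : Prop :=
  (c = max (a - b) (b - a) ∧ d = min (a + b) (h + h - a - b)) ∨
    (d = max (a - b) (b - a) ∧ c = min (a + b) (h + h - a - b))

lemma Rel.symm_ab {h a b c d : G} (hr : Rel h a b c d) : Rel h b a c d := by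
  unfold Rel at hr ⊢
  grind

lemma Rel.symm_cd {h a b c d : G} (hr : Rel h a b c d) : Rel h a b d c := by
  unfold Rel at hr ⊢
  exact hr.symm

section Main

variable (C : V.Core δ b₀ h) {ξ₁ ξ₂ r₁ r₂ : K}

omit [AddCommGroup G] [LinearOrder G] [IsOrderedAddMonoid G] in
/-- Rewrite the sum/product relations as quotients. -/
lemma eq_div_sq (hne : ξ₁ ≠ ξ₂) {X n : K} (hS : X * (ξ₁ - ξ₂) ^ 2 = n) :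
    X = n / (ξ₁ - ξ₂) ^ 2 := by
  have : (ξ₁ - ξ₂) ^ 2 ≠ 0 := pow_ne_zero 2 (sub_ne_zero.mpr hne)
  rw [← hS, mul_div_cancel_right₀ _ this]

include C


/-- Case (L,L): both points in the identity component. -/
lemma case_LL {α₁ α₂ : G} (h1 : V.Ex ξ₁ α₁) (h2 : V.Ex ξ₂ α₂) (hα₁ : α₁ ≤ 0) (hα₂ : α₂ ≤ 0)
    (hne : ξ₁ ≠ ξ₂)
    (hS : (r₁ + r₂) * (ξ₁ - ξ₂) ^ 2 = 2 * (ξ₁ * ξ₂ - δ ^ 2) * (ξ₁ + ξ₂ + 2 * b₀))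
    (hP : (r₁ * r₂) * (ξ₁ - ξ₂) ^ 2 = (ξ₁ * ξ₂ + δ ^ 2) ^ 2 + 4 * δ ^ 2 * b₀ * (ξ₁ + ξ₂ + b₀)) :
    V.NotM r₁ ∧ V.NotM r₂ := by
  have hh := C.hh
  set m := min α₁ α₂ with hm
  have hd0 : ξ₁ - ξ₂ ≠ 0 := sub_ne_zero.mpr hne
  have hdge : V.Ge (ξ₁ - ξ₂) m := (h1.ge' (by grind)).sub (h2.ge' (by grind))
  have hd : m ≤ V.w (ξ₁ - ξ₂) := hdge.le_of_ne hd0
  have hD : V.Ex ((ξ₁ - ξ₂) ^ 2) (V.w (ξ₁ - ξ₂) + V.w (ξ₁ - ξ₂)) := (ex_of_ne hd0).sq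
  have h12 : V.Ex (ξ₁ * ξ₂) (α₁ + α₂) := h1.mul h2
  have hE3 : V.Ex (ξ₁ * ξ₂ + δ ^ 2) (α₁ + α₂) := h12.add_gt (C.ex_δsq.gt' (by grind))
  have hE1 : V.Ex (ξ₁ * ξ₂ - δ ^ 2) (α₁ + α₂) := h12.sub_gt (C.ex_δsq.gt' (by grind))
  have hE4 : V.Ge (ξ₁ + ξ₂ + b₀) m :=
    ((h1.ge' (by grind)).add (h2.ge' (by grind))).add (C.hb₀.ge' (by grind))
  have hE2 : V.Ge (ξ₁ + ξ₂ + 2 * b₀) m :=
    ((h1.ge' (by grind)).add (h2.ge' (by grind))).add (C.ex_two_b₀.ge' (by grind))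
  have hnP : V.Ex ((ξ₁ * ξ₂ + δ ^ 2) ^ 2 + 4 * δ ^ 2 * b₀ * (ξ₁ + ξ₂ + b₀))
      (α₁ + α₂ + (α₁ + α₂)) :=
    hE3.sq.add_gt ((C.ex_coef.mul_ge hE4).gt (by grind))
  have hnS : V.Ge (2 * (ξ₁ * ξ₂ - δ ^ 2) * (ξ₁ + ξ₂ + 2 * b₀)) (0 + (α₁ + α₂) + m) :=
    ((C.h2.mul hE1).ge).mul hE2
  have hSe := eq_div_sq hne hS
  have hPe := eq_div_sq hne hP
  have hPi := hnP.div hD
  have hSi := hnS.div hD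
  exact vieta_high hSe hPe (hSi.mono (by grind)) hPi (by grind)

/-- Case (L,M): first point in the identity component, second near the node (not deep). -/
lemma case_LM {α₁ β : G} (h1 : V.Ex ξ₁ α₁) (h2 : V.Ex ξ₂ β) (hα₁ : α₁ ≤ 0) (hβ0 : 0 < β)
    (hβh : β < h) (hne : ξ₁ ≠ ξ₂)
    (hS : (r₁ + r₂) * (ξ₁ - ξ₂) ^ 2 = 2 * (ξ₁ * ξ₂ - δ ^ 2) * (ξ₁ + ξ₂ + 2 * b₀))
    (hP : (r₁ * r₂) * (ξ₁ - ξ₂) ^ 2 = (ξ₁ * ξ₂ + δ ^ 2) ^ 2 + 4 * δ ^ 2 * b₀ * (ξ₁ + ξ₂ + b₀)) :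
    V.Ex r₁ β ∧ V.Ex r₂ β := by
  have hh := C.hh
  have hd : V.Ex (ξ₁ - ξ₂) α₁ := h1.sub_gt (h2.gt' (by grind))
  have hD : V.Ex ((ξ₁ - ξ₂) ^ 2) (α₁ + α₁) := hd.sq
  have h12 : V.Ex (ξ₁ * ξ₂) (α₁ + β) := h1.mul h2
  have hE3 : V.Ex (ξ₁ * ξ₂ + δ ^ 2) (α₁ + β) := h12.add_gt (C.ex_δsq.gt' (by grind))
  have hE1 : V.Ex (ξ₁ * ξ₂ - δ ^ 2) (α₁ + β) := h12.sub_gt (C.ex_δsq.gt' (by grind))
  have hE4 : V.Ge (ξ₁ + ξ₂ + b₀) α₁ :=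
    ((h1.ge' (by grind)).add (h2.ge' (by grind))).add (C.hb₀.ge' (by grind))
  have hE2 : V.Ge (ξ₁ + ξ₂ + 2 * b₀) α₁ :=
    ((h1.ge' (by grind)).add (h2.ge' (by grind))).add (C.ex_two_b₀.ge' (by grind))
  have hnP : V.Ex ((ξ₁ * ξ₂ + δ ^ 2) ^ 2 + 4 * δ ^ 2 * b₀ * (ξ₁ + ξ₂ + b₀))
      (α₁ + β + (α₁ + β)) :=
    hE3.sq.add_gt ((C.ex_coef.mul_ge hE4).gt (by grind))
  have hnS : V.Ge (2 * (ξ₁ * ξ₂ - δ ^ 2) * (ξ₁ + ξ₂ + 2 * b₀)) (0 + (α₁ + β) + α₁) :=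
    ((C.h2.mul hE1).ge).mul hE2
  have hSe := eq_div_sq hne hS
  have hPe := eq_div_sq hne hP
  have hPi := hnP.div hD
  have hSi := hnS.div hD
  exact vieta_eq hSe hPe (hSi.mono (by grind)) (hPi.congr (by grind))

/-- Case (L,R): first point in the identity component, second deep near the node. -/
lemma case_LR {α₁ : G} (h1 : V.Ex ξ₁ α₁) (h2 : V.Ge ξ₂ h) (hα₁ : α₁ ≤ 0) (hne : ξ₁ ≠ ξ₂)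
    (hS : (r₁ + r₂) * (ξ₁ - ξ₂) ^ 2 = 2 * (ξ₁ * ξ₂ - δ ^ 2) * (ξ₁ + ξ₂ + 2 * b₀))
    (hP : (r₁ * r₂) * (ξ₁ - ξ₂) ^ 2 = (ξ₁ * ξ₂ + δ ^ 2) ^ 2 + 4 * δ ^ 2 * b₀ * (ξ₁ + ξ₂ + b₀)) :
    V.Ge r₁ h ∧ V.Ge r₂ h := by
  have hh := C.hh
  have hd : V.Ex (ξ₁ - ξ₂) α₁ := h1.sub_gt (h2.gt (by grind))
  have hD : V.Ex ((ξ₁ - ξ₂) ^ 2) (α₁ + α₁) := hd.sq
  have h12 : V.Ge (ξ₁ * ξ₂) (α₁ + h) := h1.ge.mul h2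
  have hE3 : V.Ge (ξ₁ * ξ₂ + δ ^ 2) (α₁ + h) := h12.add (C.ex_δsq.ge' (by grind))
  have hE1 : V.Ge (ξ₁ * ξ₂ - δ ^ 2) (α₁ + h) := h12.sub (C.ex_δsq.ge' (by grind))
  have hE4 : V.Ge (ξ₁ + ξ₂ + b₀) α₁ :=
    ((h1.ge' (by grind)).add (h2.mono (by grind))).add (C.hb₀.ge' (by grind))
  have hE2 : V.Ge (ξ₁ + ξ₂ + 2 * b₀) α₁ :=
    ((h1.ge' (by grind)).add (h2.mono (by grind))).add (C.ex_two_b₀.ge' (by grind))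
  have hnP : V.Ge ((ξ₁ * ξ₂ + δ ^ 2) ^ 2 + 4 * δ ^ 2 * b₀ * (ξ₁ + ξ₂ + b₀))
      (α₁ + h + (α₁ + h)) :=
    hE3.sq.add ((C.ex_coef.mul_ge hE4).mono (by grind))
  have hnS : V.Ge (2 * (ξ₁ * ξ₂ - δ ^ 2) * (ξ₁ + ξ₂ + 2 * b₀)) (0 + (α₁ + h) + α₁) :=
    (C.h2.ge.mul hE1).mul hE2
  have hSe := eq_div_sq hne hS
  have hPe := eq_div_sq hne hP
  have hPi := hnP.div hD
  have hSi := hnS.div hD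
  exact vieta_low hSe hPe (hSi.mono (by grind)) (hPi.mono (by grind))

/-- Facts valid whenever both `ξ₁, ξ₂` lie in the maximal ideal. -/
lemma ex_E4 (g1 : V.Gt ξ₁ 0) (g2 : V.Gt ξ₂ 0) : V.Ex (ξ₁ + ξ₂ + b₀) 0 :=
  C.hb₀.gt_add (g1.add g2)

lemma ex_E2 (g1 : V.Gt ξ₁ 0) (g2 : V.Gt ξ₂ 0) : V.Ex (ξ₁ + ξ₂ + 2 * b₀) 0 :=
  C.ex_two_b₀.gt_add (g1.add g2)

lemma ex_second (g1 : V.Gt ξ₁ 0) (g2 : V.Gt ξ₂ 0) :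
    V.Ex (4 * δ ^ 2 * b₀ * (ξ₁ + ξ₂ + b₀)) (h + h) :=
  (C.ex_coef.mul (ex_E4 C g1 g2)).congr (by grind)

/-- Case (M,M) with `α₁ < α₂`. -/
lemma case_MM_lt {α₁ α₂ : G} (h1 : V.Ex ξ₁ α₁) (h2 : V.Ex ξ₂ α₂) (hα₁ : 0 < α₁)
    (hlt : α₁ < α₂) (hα₂ : α₂ < h) (hne : ξ₁ ≠ ξ₂)
    (hS : (r₁ + r₂) * (ξ₁ - ξ₂) ^ 2 = 2 * (ξ₁ * ξ₂ - δ ^ 2) * (ξ₁ + ξ₂ + 2 * b₀))
    (hP : (r₁ * r₂) * (ξ₁ - ξ₂) ^ 2 = (ξ₁ * ξ₂ + δ ^ 2) ^ 2 + 4 * δ ^ 2 * b₀ * (ξ₁ + ξ₂ + b₀)) :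
    Rel h α₁ α₂ (V.cl h r₁) (V.cl h r₂) := by
  have hh := C.hh
  have g1 : V.Gt ξ₁ 0 := h1.gt' hα₁
  have g2 : V.Gt ξ₂ 0 := h2.gt' (by grind)
  have hd : V.Ex (ξ₁ - ξ₂) α₁ := h1.sub_gt (h2.gt' hlt)
  have hD : V.Ex ((ξ₁ - ξ₂) ^ 2) (α₁ + α₁) := hd.sq
  have h12 : V.Ex (ξ₁ * ξ₂) (α₁ + α₂) := h1.mul h2
  have hE3 : V.Ex (ξ₁ * ξ₂ + δ ^ 2) (α₁ + α₂) := h12.add_gt (C.ex_δsq.gt' (by grind))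
  have hE1 : V.Ex (ξ₁ * ξ₂ - δ ^ 2) (α₁ + α₂) := h12.sub_gt (C.ex_δsq.gt' (by grind))
  have hnS : V.Ex (2 * (ξ₁ * ξ₂ - δ ^ 2) * (ξ₁ + ξ₂ + 2 * b₀)) (0 + (α₁ + α₂) + 0) :=
    (C.h2.mul hE1).mul (ex_E2 C g1 g2)
  have h2nd := ex_second C g1 g2
  have hSe := eq_div_sq hne hS
  have hPe := eq_div_sq hne hP
  have hSi := (hnS.div hD).congr (show 0 + (α₁ + α₂) + 0 - (α₁ + α₁) = α₂ - α₁ by grind)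
  rcases lt_trichotomy (α₁ + α₂) h with hlt' | heq | hgt
  · have hnP : V.Ex ((ξ₁ * ξ₂ + δ ^ 2) ^ 2 + 4 * δ ^ 2 * b₀ * (ξ₁ + ξ₂ + b₀))
        (α₁ + α₂ + (α₁ + α₂)) := hE3.sq.add_gt (h2nd.gt' (by grind))
    have hPi := hnP.div hD
    rcases vieta_split hSe hPe hSi hPi (by grind) with ⟨hr1, hr2⟩ | ⟨hr2, hr1⟩
    · rw [cl_of_ex hr1, cl_of_ex hr2]; unfold Rel; grind
    · rw [cl_of_ex hr1, cl_of_ex hr2]; unfold Rel; grind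
  · have hnP : V.Ge ((ξ₁ * ξ₂ + δ ^ 2) ^ 2 + 4 * δ ^ 2 * b₀ * (ξ₁ + ξ₂ + b₀)) (h + h) :=
      (hE3.sq.ge' (by grind)).add h2nd.ge
    have hPi := hnP.div hD
    rcases vieta_split_le hSe hPe hSi hPi (by grind) with ⟨hr1, hr2⟩ | ⟨hr2, hr1⟩
    · rw [cl_of_ex hr1, cl_of_ge hh (hr2.mono (by grind))]; unfold Rel; grind
    · rw [cl_of_ge hh (hr1.mono (by grind)), cl_of_ex hr2]; unfold Rel; grind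
  · have hnP : V.Ex ((ξ₁ * ξ₂ + δ ^ 2) ^ 2 + 4 * δ ^ 2 * b₀ * (ξ₁ + ξ₂ + b₀)) (h + h) :=
      h2nd.gt_add (hE3.sq.gt' (by grind))
    have hPi := hnP.div hD
    rcases vieta_split hSe hPe hSi hPi (by grind) with ⟨hr1, hr2⟩ | ⟨hr2, hr1⟩
    · rw [cl_of_ex hr1, cl_of_ex hr2]; unfold Rel; grind
    · rw [cl_of_ex hr1, cl_of_ex hr2]; unfold Rel; grind

/-- Case (M,M) with `α₁ = α₂`. -/
lemma case_MM_eq {α : G} (h1 : V.Ex ξ₁ α) (h2 : V.Ex ξ₂ α) (hα₁ : 0 < α)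
    (hα₂ : α < h) (hne : ξ₁ ≠ ξ₂)
    (hS : (r₁ + r₂) * (ξ₁ - ξ₂) ^ 2 = 2 * (ξ₁ * ξ₂ - δ ^ 2) * (ξ₁ + ξ₂ + 2 * b₀))
    (hP : (r₁ * r₂) * (ξ₁ - ξ₂) ^ 2 = (ξ₁ * ξ₂ + δ ^ 2) ^ 2 + 4 * δ ^ 2 * b₀ * (ξ₁ + ξ₂ + b₀)) :
    Rel h α α (V.cl h r₁) (V.cl h r₂) := by
  have hh := C.hh
  have g1 : V.Gt ξ₁ 0 := h1.gt' hα₁
  have g2 : V.Gt ξ₂ 0 := h2.gt' hα₁
  have hd0 : ξ₁ - ξ₂ ≠ 0 := sub_ne_zero.mpr hne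
  have hdge : V.Ge (ξ₁ - ξ₂) α := h1.ge.sub h2.ge
  have hd : α ≤ V.w (ξ₁ - ξ₂) := hdge.le_of_ne hd0
  have hD : V.Ex ((ξ₁ - ξ₂) ^ 2) (V.w (ξ₁ - ξ₂) + V.w (ξ₁ - ξ₂)) := (ex_of_ne hd0).sq
  have h12 : V.Ex (ξ₁ * ξ₂) (α + α) := h1.mul h2
  have hE3 : V.Ex (ξ₁ * ξ₂ + δ ^ 2) (α + α) := h12.add_gt (C.ex_δsq.gt' (by grind))
  have hE1 : V.Ex (ξ₁ * ξ₂ - δ ^ 2) (α + α) := h12.sub_gt (C.ex_δsq.gt' (by grind))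
  have hnS : V.Ex (2 * (ξ₁ * ξ₂ - δ ^ 2) * (ξ₁ + ξ₂ + 2 * b₀)) (0 + (α + α) + 0) :=
    (C.h2.mul hE1).mul (ex_E2 C g1 g2)
  have h2nd := ex_second C g1 g2
  have hSe := eq_div_sq hne hS
  have hPe := eq_div_sq hne hP
  have hSi := hnS.div hD
  rcases lt_trichotomy (α + α) h with hlt' | heq | hgt
  · have hnP : V.Ex ((ξ₁ * ξ₂ + δ ^ 2) ^ 2 + 4 * δ ^ 2 * b₀ * (ξ₁ + ξ₂ + b₀))
        (α + α + (α + α)) := hE3.sq.add_gt (h2nd.gt' (by grind))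
    have hPi := hnP.div hD
    rcases vieta_split hSe hPe hSi hPi (by grind) with ⟨hr1, hr2⟩ | ⟨hr2, hr1⟩
    · rw [cl_of_ex hr1, cl_of_ex hr2]; unfold Rel; grind
    · rw [cl_of_ex hr1, cl_of_ex hr2]; unfold Rel; grind
  · have hnP : V.Ge ((ξ₁ * ξ₂ + δ ^ 2) ^ 2 + 4 * δ ^ 2 * b₀ * (ξ₁ + ξ₂ + b₀)) (h + h) :=
      (hE3.sq.ge' (by grind)).add h2nd.ge
    have hPi := hnP.div hD
    rcases vieta_split_le hSe hPe hSi hPi (by grind) with ⟨hr1, hr2⟩ | ⟨hr2, hr1⟩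
    · rw [cl_of_ex hr1, cl_of_ge hh (hr2.mono (by grind))]; unfold Rel; grind
    · rw [cl_of_ge hh (hr1.mono (by grind)), cl_of_ex hr2]; unfold Rel; grind
  · have hnP : V.Ex ((ξ₁ * ξ₂ + δ ^ 2) ^ 2 + 4 * δ ^ 2 * b₀ * (ξ₁ + ξ₂ + b₀)) (h + h) :=
      h2nd.gt_add (hE3.sq.gt' (by grind))
    have hPi := hnP.div hD
    rcases vieta_split hSe hPe hSi hPi (by grind) with ⟨hr1, hr2⟩ | ⟨hr2, hr1⟩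
    · rw [cl_of_ex hr1, cl_of_ex hr2]; unfold Rel; grind
    · rw [cl_of_ex hr1, cl_of_ex hr2]; unfold Rel; grind

/-- Case (M,R). -/
lemma case_MR {α : G} (h1 : V.Ex ξ₁ α) (h2 : V.Ge ξ₂ h) (hα₁ : 0 < α)
    (hα₂ : α < h) (hne : ξ₁ ≠ ξ₂)
    (hS : (r₁ + r₂) * (ξ₁ - ξ₂) ^ 2 = 2 * (ξ₁ * ξ₂ - δ ^ 2) * (ξ₁ + ξ₂ + 2 * b₀))
    (hP : (r₁ * r₂) * (ξ₁ - ξ₂) ^ 2 = (ξ₁ * ξ₂ + δ ^ 2) ^ 2 + 4 * δ ^ 2 * b₀ * (ξ₁ + ξ₂ + b₀)) :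
    V.Ex r₁ (h - α) ∧ V.Ex r₂ (h - α) := by
  have hh := C.hh
  have g1 : V.Gt ξ₁ 0 := h1.gt' hα₁
  have g2 : V.Gt ξ₂ 0 := h2.gt hh
  have hd : V.Ex (ξ₁ - ξ₂) α := h1.sub_gt (h2.gt hα₂)
  have hD : V.Ex ((ξ₁ - ξ₂) ^ 2) (α + α) := hd.sq
  have h12 : V.Ge (ξ₁ * ξ₂) (α + h) := h1.ge.mul h2
  have hE3 : V.Ge (ξ₁ * ξ₂ + δ ^ 2) (α + h) := h12.add (C.ex_δsq.ge' (by grind))
  have hE1 : V.Ge (ξ₁ * ξ₂ - δ ^ 2) (α + h) := h12.sub (C.ex_δsq.ge' (by grind))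
  have hnS : V.Ge (2 * (ξ₁ * ξ₂ - δ ^ 2) * (ξ₁ + ξ₂ + 2 * b₀)) (0 + (α + h) + 0) :=
    (C.h2.ge.mul hE1).mul (ex_E2 C g1 g2).ge
  have h2nd := ex_second C g1 g2
  have hnP : V.Ex ((ξ₁ * ξ₂ + δ ^ 2) ^ 2 + 4 * δ ^ 2 * b₀ * (ξ₁ + ξ₂ + b₀)) (h + h) :=
    h2nd.gt_add (hE3.sq.gt (by grind))
  have hSe := eq_div_sq hne hS
  have hPe := eq_div_sq hne hP
  have hSi := hnS.div hD
  have hPi := hnP.div hD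
  exact vieta_eq hSe hPe (hSi.mono (by grind)) (hPi.congr (by grind))

/-- Case (R,R). -/
lemma case_RR (h1 : V.Ge ξ₁ h) (h2 : V.Ge ξ₂ h) (hne : ξ₁ ≠ ξ₂)
    (hS : (r₁ + r₂) * (ξ₁ - ξ₂) ^ 2 = 2 * (ξ₁ * ξ₂ - δ ^ 2) * (ξ₁ + ξ₂ + 2 * b₀))
    (hP : (r₁ * r₂) * (ξ₁ - ξ₂) ^ 2 = (ξ₁ * ξ₂ + δ ^ 2) ^ 2 + 4 * δ ^ 2 * b₀ * (ξ₁ + ξ₂ + b₀)) :
    V.NotM r₁ ∧ V.NotM r₂ := by
  have hh := C.hh
  have g1 : V.Gt ξ₁ 0 := h1.gt hh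
  have g2 : V.Gt ξ₂ 0 := h2.gt hh
  have hd0 : ξ₁ - ξ₂ ≠ 0 := sub_ne_zero.mpr hne
  have hdge : V.Ge (ξ₁ - ξ₂) h := h1.sub h2
  have hd : h ≤ V.w (ξ₁ - ξ₂) := hdge.le_of_ne hd0
  have hD : V.Ex ((ξ₁ - ξ₂) ^ 2) (V.w (ξ₁ - ξ₂) + V.w (ξ₁ - ξ₂)) := (ex_of_ne hd0).sq
  have h12 : V.Ge (ξ₁ * ξ₂) (h + h) := h1.mul h2
  have hE3 : V.Ge (ξ₁ * ξ₂ + δ ^ 2) (h + h) := h12.add C.ex_δsq.ge
  have hE1 : V.Ge (ξ₁ * ξ₂ - δ ^ 2) (h + h) := h12.sub C.ex_δsq.ge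
  have hnS : V.Ge (2 * (ξ₁ * ξ₂ - δ ^ 2) * (ξ₁ + ξ₂ + 2 * b₀)) (0 + (h + h) + 0) :=
    (C.h2.ge.mul hE1).mul (ex_E2 C g1 g2).ge
  have h2nd := ex_second C g1 g2
  have hnP : V.Ex ((ξ₁ * ξ₂ + δ ^ 2) ^ 2 + 4 * δ ^ 2 * b₀ * (ξ₁ + ξ₂ + b₀)) (h + h) :=
    h2nd.gt_add (hE3.sq.gt (by grind))
  have hSe := eq_div_sq hne hS
  have hPe := eq_div_sq hne hP
  have hSi := hnS.div hD
  have hPi := hnP.div hD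
  exact vieta_high hSe hPe (hSi.mono (by grind)) hPi (by grind)

/-- The main relation for two points with distinct `ξ`-coordinates. -/
theorem main_rel (hne : ξ₁ ≠ ξ₂)
    (hS : (r₁ + r₂) * (ξ₁ - ξ₂) ^ 2 = 2 * (ξ₁ * ξ₂ - δ ^ 2) * (ξ₁ + ξ₂ + 2 * b₀))
    (hP : (r₁ * r₂) * (ξ₁ - ξ₂) ^ 2 = (ξ₁ * ξ₂ + δ ^ 2) ^ 2 + 4 * δ ^ 2 * b₀ * (ξ₁ + ξ₂ + b₀)) :
    Rel h (V.cl h ξ₁) (V.cl h ξ₂) (V.cl h r₁) (V.cl h r₂) := by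
  have hh := C.hh
  have hS' : (r₁ + r₂) * (ξ₂ - ξ₁) ^ 2 = 2 * (ξ₂ * ξ₁ - δ ^ 2) * (ξ₂ + ξ₁ + 2 * b₀) := by
    rw [show (ξ₂ - ξ₁) ^ 2 = (ξ₁ - ξ₂) ^ 2 by ring, hS]; ring
  have hP' : (r₁ * r₂) * (ξ₂ - ξ₁) ^ 2
      = (ξ₂ * ξ₁ + δ ^ 2) ^ 2 + 4 * δ ^ 2 * b₀ * (ξ₂ + ξ₁ + b₀) := by
    rw [show (ξ₂ - ξ₁) ^ 2 = (ξ₁ - ξ₂) ^ 2 by ring, hP]; ring
  rcases regime V h ξ₁ with ⟨α₁, h1, hα₁⟩ | ⟨α₁, h1, hα₁, hα₁'⟩ | h1 <;>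
  rcases regime V h ξ₂ with ⟨α₂, h2, hα₂⟩ | ⟨α₂, h2, hα₂, hα₂'⟩ | h2
  · -- L L
    obtain ⟨hr1, hr2⟩ := case_LL C h1 h2 hα₁ hα₂ hne hS hP
    rw [cl_of_ex h1, cl_of_ex h2, cl_of_notM hh hr1, cl_of_notM hh hr2]
    unfold Rel; grind
  · -- L M
    obtain ⟨hr1, hr2⟩ := case_LM C h1 h2 hα₁ hα₂ hα₂' hne hS hP
    rw [cl_of_ex h1, cl_of_ex h2, cl_of_ex hr1, cl_of_ex hr2]
    unfold Rel; grind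
  · -- L R
    obtain ⟨hr1, hr2⟩ := case_LR C h1 h2 hα₁ hne hS hP
    rw [cl_of_ex h1, cl_of_ge hh h2, cl_of_ge hh hr1, cl_of_ge hh hr2]
    unfold Rel; grind
  · -- M L
    obtain ⟨hr1, hr2⟩ := case_LM C h2 h1 hα₂ hα₁ hα₁' hne.symm hS' hP'
    rw [cl_of_ex h1, cl_of_ex h2, cl_of_ex hr1, cl_of_ex hr2]
    unfold Rel; grind
  · -- M M
    rcases lt_trichotomy α₁ α₂ with hlt | heq | hgt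
    · have := case_MM_lt C h1 h2 hα₁ hlt hα₂' hne hS hP
      rw [cl_of_ex h1, cl_of_ex h2]
      unfold Rel at this ⊢; grind
    · subst heq
      have := case_MM_eq C h1 h2 hα₁ hα₁' hne hS hP
      rw [cl_of_ex h1, cl_of_ex h2]
      unfold Rel at this ⊢; grind
    · have := case_MM_lt C h2 h1 hα₂ hgt hα₁' hne.symm hS' hP'
      rw [cl_of_ex h1, cl_of_ex h2]
      unfold Rel at this ⊢; grind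
  · -- M R
    obtain ⟨hr1, hr2⟩ := case_MR C h1 h2 hα₁ hα₁' hne hS hP
    rw [cl_of_ex h1, cl_of_ge hh h2, cl_of_ex hr1, cl_of_ex hr2]
    unfold Rel; grind
  · -- R L
    obtain ⟨hr1, hr2⟩ := case_LR C h2 h1 hα₂ hne.symm hS' hP'
    rw [cl_of_ge hh h1, cl_of_ex h2, cl_of_ge hh hr1, cl_of_ge hh hr2]
    unfold Rel; grind
  · -- R M
    obtain ⟨hr1, hr2⟩ := case_MR C h2 h1 hα₂ hα₂' hne.symm hS' hP'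
    rw [cl_of_ge hh h1, cl_of_ex h2, cl_of_ex hr1, cl_of_ex hr2]
    unfold Rel; grind
  · -- R R
    obtain ⟨hr1, hr2⟩ := case_RR C h1 h2 hne hS hP
    rw [cl_of_ge hh h1, cl_of_ge hh h2, cl_of_notM hh hr1, cl_of_notM hh hr2]
    unfold Rel; grind

end Main

end AVal

end S05H65
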